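/-
S25 package TWIST, leaf file G4 (helper7428): rigidity (the `ε`-fibre).

ALL FOUR leaves G4a `rigid_of_iso`, G4b `rigid_of_isBC`, G4c `exists_rigid_tensor_pull`,
G4d `equiv_of_rigid_tensor_pull` of helper9130's `TWIST/G4.lean`, with the exact names and statements, in the namespace
`Fermat.Agent.S25.TWIST.G4.H7428`.

Method: `Rigid 𝒞 N` is equivalent to `R ⊗[B₁, ε] N₁ ≃ₗ[R] R` (`rigid_iff_nonempty_equiv`); the
class of the `ε`-fibre of an invertible `B₁`-module is computed in Mathlib's Picard group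
(`CommRing.Pic.mapAlgebra` along `ε : B₁ → R`, a retraction of `R → B₁`).
-/
import Fermat.Agent.S25.TWIST.Defs

set_option autoImplicit false
set_option linter.style.haveILetI false

universe u

namespace Fermat.Agent.S25.TWIST.G4.H7428

open scoped TensorProduct

open GluedModule Ten

variable {k : Type u} [Field k] (𝒞 : CurveData k)

section

variable (R : Type u) [CommRing R] [Algebra k R]

/-- `R` as an algebra over the first chart ring, via `ε`. -/
@[reducible] noncomputable def epsAlgebra : Algebra (𝒞.chart R).B₁ R := (𝒞.epsR R).toRingHom.toAlgebra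

theorem epsAlgebra_isScalarTower :
    letI := epsAlgebra 𝒞 R
    IsScalarTower R (𝒞.chart R).B₁ R := by
  letI := epsAlgebra 𝒞 R
  exact IsScalarTower.of_algebraMap_eq fun r => ((𝒞.epsR R).commutes r).symm

end

variable {R : Type u} [CommRing R] [Algebra k R]

/-- The `ε`-fibre criterion: `N` is rigid iff `R ⊗[B₁, ε] N₁` is free of rank one. -/
theorem rigid_iff_nonempty_equiv (N : GluedModule (𝒞.chart R)) :
    letI := epsAlgebra 𝒞 R
    Rigid 𝒞 N ↔ Nonempty ((R ⊗[(𝒞.chart R).B₁] N.N₁) ≃ₗ[R] R) := by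
  letI := epsAlgebra 𝒞 R
  haveI := epsAlgebra_isScalarTower 𝒞 R
  have halg : ∀ b : (𝒞.chart R).B₁, algebraMap (𝒞.chart R).B₁ R b = 𝒞.epsR R b := fun _ => rfl
  -- the canonical `ε`-semilinear map `n ↦ 1 ⊗ n`
  let ι : N.N₁ →ₗ[R] R ⊗[(𝒞.chart R).B₁] N.N₁ :=
    { toFun := fun n => (1 : R) ⊗ₜ[(𝒞.chart R).B₁] n
      map_add' := fun x y => TensorProduct.tmul_add _ _ _
      map_smul' := fun r n => by
        rw [RingHom.id_apply, ← algebraMap_smul (𝒞.chart R).B₁ r n, ← TensorProduct.smul_tmul,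
          TensorProduct.smul_tmul', Algebra.smul_def, halg, AlgHom.commutes, mul_one,
          Algebra.algebraMap_self, RingHom.id_apply, smul_eq_mul, mul_one] }
  have hι : ∀ (b : (𝒞.chart R).B₁) (n : N.N₁), ι (b • n) = 𝒞.epsR R b • ι n := by
    intro b n
    change (1 : R) ⊗ₜ[(𝒞.chart R).B₁] (b • n) = 𝒞.epsR R b • ((1 : R) ⊗ₜ[(𝒞.chart R).B₁] n)
    rw [← TensorProduct.smul_tmul, TensorProduct.smul_tmul', Algebra.smul_def, halg, mul_one,
      smul_eq_mul, mul_one]
  constructor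
  · rintro ⟨e, he, huniv⟩
    -- `e` as a `B₁`-linear map
    let eB : N.N₁ →ₗ[(𝒞.chart R).B₁] R :=
      { toFun := e
        map_add' := e.map_add
        map_smul' := fun b n => by
          rw [RingHom.id_apply, he, Algebra.smul_def, halg] }
    let α : R ⊗[(𝒞.chart R).B₁] N.N₁ →ₗ[R] R := eB.liftBaseChange R
    obtain ⟨β, hβ, -⟩ := huniv (R ⊗[(𝒞.chart R).B₁] N.N₁) ι hι
    have hαβ : α ∘ₗ β = LinearMap.id := by
      obtain ⟨γ, -, hγ⟩ := huniv R e (fun b n => by rw [he, smul_eq_mul])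
      have h1 : α ∘ₗ β = γ := hγ _ (fun n => by
        rw [LinearMap.comp_apply, hβ]
        change eB.liftBaseChange R ((1 : R) ⊗ₜ[(𝒞.chart R).B₁] n) = e n
        rw [LinearMap.liftBaseChange_tmul, one_smul]
        rfl)
      have h2 : LinearMap.id = γ := hγ _ (fun n => rfl)
      rw [h1, h2]
    have hβα : β ∘ₗ α = LinearMap.id := by
      apply TensorProduct.AlgebraTensorModule.ext
      intro r n
      rw [LinearMap.comp_apply, LinearMap.id_apply]
      change β (eB.liftBaseChange R (r ⊗ₜ[(𝒞.chart R).B₁] n)) = r ⊗ₜ[(𝒞.chart R).B₁] n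
      rw [LinearMap.liftBaseChange_tmul]
      change β (r • e n) = _
      rw [map_smul, hβ]
      change r • ((1 : R) ⊗ₜ[(𝒞.chart R).B₁] n) = _
      rw [TensorProduct.smul_tmul', smul_eq_mul, mul_one]
    exact ⟨LinearEquiv.ofLinearMap α β hαβ hβα⟩
  · rintro ⟨θ⟩
    refine ⟨θ.toLinearMap ∘ₗ ι, fun b n => ?_, ?_⟩
    · rw [LinearMap.comp_apply, hι, map_smul, smul_eq_mul]
      rfl
    · intro Q _ _ h hh
      letI : Module (𝒞.chart R).B₁ Q := Module.compHom Q (𝒞.epsR R).toRingHom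
      haveI : IsScalarTower (𝒞.chart R).B₁ R Q := ⟨fun b r q => by
        change (𝒞.epsR R b * r) • q = 𝒞.epsR R b • (r • q)
        rw [mul_smul]⟩
      let hB : N.N₁ →ₗ[(𝒞.chart R).B₁] Q :=
        { toFun := h
          map_add' := h.map_add
          map_smul' := fun b n => by
            rw [RingHom.id_apply, hh]
            rfl }
      refine ⟨hB.liftBaseChange R ∘ₗ θ.symm.toLinearMap, fun n => ?_, fun h'' hh'' => ?_⟩
      · rw [LinearMap.comp_apply, LinearMap.comp_apply, LinearEquiv.coe_coe, LinearEquiv.coe_coe,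
          LinearEquiv.symm_apply_apply]
        change hB.liftBaseChange R ((1 : R) ⊗ₜ[(𝒞.chart R).B₁] n) = h n
        rw [LinearMap.liftBaseChange_tmul, one_smul]
        rfl
      · have h3 : h'' ∘ₗ θ.toLinearMap = hB.liftBaseChange R := by
          apply TensorProduct.AlgebraTensorModule.ext
          intro r n
          have h4 : r ⊗ₜ[(𝒞.chart R).B₁] n = r • ι n := by
            change _ = r • ((1 : R) ⊗ₜ[(𝒞.chart R).B₁] n)
            rw [TensorProduct.smul_tmul', smul_eq_mul, mul_one]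
          rw [LinearMap.liftBaseChange_tmul, h4, map_smul]
          congr 1
          exact hh'' n
        ext
        rw [← h3]
        simp

/-! ### The leaves -/

/-- (G4a) Rigidity is invariant under isomorphism. -/
theorem rigid_of_iso (L L' : GluedModule (𝒞.chart R)) (e : Nonempty (Iso L L'))
    (h : Rigid 𝒞 L) : Rigid 𝒞 L' := by
  letI := epsAlgebra 𝒞 R
  obtain ⟨e⟩ := e
  rw [rigid_iff_nonempty_equiv] at h ⊢
  obtain ⟨θ⟩ := h
  exact ⟨(TensorProduct.AlgebraTensorModule.congr (LinearEquiv.refl R R) e.e₁).symm.trans θ⟩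

/-- Base change of Picard classes, on representatives. -/
theorem mapAlgebra_mk (B A : Type u) [CommRing B] [CommRing A] [Algebra B A] (M : Type u)
    [AddCommGroup M] [Module B M] [Module.Invertible B M] :
    CommRing.Pic.mapAlgebra B A (CommRing.Pic.mk B M) = CommRing.Pic.mk A (A ⊗[B] M) := by
  rw [CommRing.Pic.mapAlgebra_apply, CommRing.Pic.mk_eq_mk_iff]
  exact ⟨TensorProduct.AlgebraTensorModule.congr (LinearEquiv.refl A A)
    (CommRing.Pic.mk.linearEquiv B M)⟩

/-- The class of the `ε`-fibre of `X ⊗ π^* E` is the class of the `ε`-fibre of `X` times the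
class of `E`. -/
theorem mk_fibre_tensor_pull (X : GluedModule (𝒞.chart R)) (hX : X.IsLineBundle)
    (E : Type u) [AddCommGroup E] [Module R E] [Module.Invertible R E] :
    letI := epsAlgebra 𝒞 R
    haveI := hX.inv₁
    CommRing.Pic.mk R
        (R ⊗[(𝒞.chart R).B₁] (X.N₁ ⊗[(𝒞.chart R).B₁] ((𝒞.chart R).B₁ ⊗[R] E))) =
      CommRing.Pic.mk R (R ⊗[(𝒞.chart R).B₁] X.N₁) * CommRing.Pic.mk R E := by
  letI := epsAlgebra 𝒞 R
  haveI := epsAlgebra_isScalarTower 𝒞 R
  haveI := hX.inv₁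
  rw [← mapAlgebra_mk, CommRing.Pic.mk_tensor, map_mul, mapAlgebra_mk,
    ← mapAlgebra_mk R (𝒞.chart R).B₁ E, CommRing.Pic.mapAlgebra_mapAlgebra,
    CommRing.Pic.mapAlgebra_self_apply]

/-- (G4c) Every line bundle becomes rigid after tensoring with the pull-back of an invertible
module of the base (the inverse of its `ε`-fibre). -/
theorem exists_rigid_tensor_pull (X : GluedModule (𝒞.chart R)) (hX : X.IsLineBundle) :
    ∃ (E : Type u) (_ : AddCommGroup E) (_ : Module R E), Module.Invertible R E ∧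
      Rigid 𝒞 (tensor X (pull (𝒞.chart R) E)) := by
  letI := epsAlgebra 𝒞 R
  haveI := hX.inv₁
  refine ⟨Module.Dual R (R ⊗[(𝒞.chart R).B₁] X.N₁), inferInstance, inferInstance,
    inferInstance, ?_⟩
  rw [rigid_iff_nonempty_equiv]
  have h := mk_fibre_tensor_pull 𝒞 X hX (Module.Dual R (R ⊗[(𝒞.chart R).B₁] X.N₁))
  rw [CommRing.Pic.mk_dual, mul_inv_cancel] at h
  have h2 : Nonempty ((R ⊗[(𝒞.chart R).B₁] (X.N₁ ⊗[(𝒞.chart R).B₁]
      ((𝒞.chart R).B₁ ⊗[R] Module.Dual R (R ⊗[(𝒞.chart R).B₁] X.N₁)))) ≃ₗ[R] R) :=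
    CommRing.Pic.mk_eq_one_iff.mp h
  exact h2

/-- (G4d) The rigidifying module is unique. -/
theorem equiv_of_rigid_tensor_pull (X : GluedModule (𝒞.chart R)) (hX : X.IsLineBundle)
    (E E' : Type u) [AddCommGroup E] [Module R E] [Module.Invertible R E]
    [AddCommGroup E'] [Module R E'] [Module.Invertible R E']
    (h : Rigid 𝒞 (tensor X (pull (𝒞.chart R) E)))
    (h' : Rigid 𝒞 (tensor X (pull (𝒞.chart R) E'))) : Nonempty (E ≃ₗ[R] E') := by
  letI := epsAlgebra 𝒞 R
  haveI := hX.inv₁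
  rw [rigid_iff_nonempty_equiv] at h h'
  have h1 := mk_fibre_tensor_pull 𝒞 X hX E
  have h2 := mk_fibre_tensor_pull 𝒞 X hX E'
  have e1 : CommRing.Pic.mk R
      (R ⊗[(𝒞.chart R).B₁] (X.N₁ ⊗[(𝒞.chart R).B₁] ((𝒞.chart R).B₁ ⊗[R] E))) = 1 :=
    CommRing.Pic.mk_eq_one_iff.mpr h
  have e2 : CommRing.Pic.mk R
      (R ⊗[(𝒞.chart R).B₁] (X.N₁ ⊗[(𝒞.chart R).B₁] ((𝒞.chart R).B₁ ⊗[R] E'))) = 1 :=
    CommRing.Pic.mk_eq_one_iff.mpr h'
  rw [e1] at h1
  rw [e2] at h2
  exact CommRing.Pic.mk_eq_mk_iff.mp (mul_left_cancel (h1.symm.trans h2))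

/-! ### G4b: base change (core = helper8088's `ATLAS/RIG/Main.lean`, copied) -/

section core

/-- Abstract core of (RIG).  `B` an `R`-algebra with an `R`-point `ε`, `N` a `B`-module whose
`ε`-fibre is free of rank one (universal property form); `(φ, ψ) : (R, B) → (R', B')` compatible
with the points `ε`, `ε'`, and `N'` the base change of `N` along `ψ` (universal property form).
Then the `ε'`-fibre of `N'` is free of rank one. -/
theorem rigid_baseChange_core {R B N : Type u} [CommRing R] [CommRing B] [Algebra R B]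
    (ε : B →ₐ[R] R) [AddCommGroup N] [Module B N] [Module R N] [IsScalarTower R B N]
    {R' B' N' : Type u} [CommRing R'] [CommRing B'] [Algebra R' B'] (ε' : B' →ₐ[R'] R')
    [AddCommGroup N'] [Module B' N'] [Module R' N'] [IsScalarTower R' B' N']
    (φ : R →+* R') (ψ : B →+* B') (hψε : ∀ b, ε' (ψ b) = φ (ε b))
    (hψalg : ∀ r, ψ (algebraMap R B r) = algebraMap R' B' (φ r))
    (j : N →+ N') (hj : ∀ (b : B) (n : N), j (b • n) = ψ b • j n)
    (huniv : ∀ (Q : Type u) [AddCommGroup Q] [Module B' Q] (h : N →+ Q),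
      (∀ (b : B) (n : N), h (b • n) = ψ b • h n) →
        ∃! h' : N' →ₗ[B'] Q, ∀ n, h' (j n) = h n)
    (hrig : ∃ e : N →ₗ[R] R, (∀ (b : B) (n : N), e (b • n) = ε b * e n) ∧
      ∀ (Q : Type u) [AddCommGroup Q] [Module R Q] (h : N →ₗ[R] Q),
        (∀ (b : B) (n : N), h (b • n) = ε b • h n) →
          ∃! h' : R →ₗ[R] Q, ∀ n, h' (e n) = h n) :
    ∃ e' : N' →ₗ[R'] R', (∀ (b : B') (n : N'), e' (b • n) = ε' b * e' n) ∧
      ∀ (Q : Type u) [AddCommGroup Q] [Module R' Q] (h : N' →ₗ[R'] Q),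
        (∀ (b : B') (n : N'), h (b • n) = ε' b • h n) →
          ∃! h' : R' →ₗ[R'] Q, ∀ n, h' (e' n) = h n := by
  obtain ⟨e, he, hu⟩ := hrig
  -- `e` is surjective
  have hesurj : ∃ n₀, e n₀ = 1 := by
    have h0 := (hu (R ⧸ LinearMap.range e) 0 (fun b n => by simp)).unique
      (y₁ := 0) (y₂ := (LinearMap.range e).mkQ) (fun n => by simp)
      (fun n => by
        rw [LinearMap.zero_apply]
        exact (Submodule.Quotient.mk_eq_zero _).mpr ⟨n, rfl⟩)
    have h1 : (1 : R) ∈ LinearMap.range e := by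
      have h2 : (LinearMap.range e).mkQ 1 = 0 := by rw [← h0, LinearMap.zero_apply]
      exact (Submodule.Quotient.mk_eq_zero _).mp h2
    exact h1
  -- the rigidification of `N'`
  letI modB'R' : Module B' R' := Module.compHom R' (ε' : B' →+* R')
  have hsmulB'R' : ∀ (c : B') (x : R'), c • x = ε' c * x := fun _ _ => rfl
  let h₁ : N →+ R' := (φ : R →+ R').comp e.toAddMonoidHom
  have hh₁a : ∀ n : N, h₁ n = φ (e n) := fun _ => rfl
  have hh₁ : ∀ (b : B) (n : N), h₁ (b • n) = ψ b • h₁ n := by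
    intro b n
    rw [hsmulB'R', hh₁a, hh₁a, he, map_mul, hψε]
  obtain ⟨e'B, he'B, -⟩ := huniv R' h₁ hh₁
  let e' : N' →ₗ[R'] R' :=
    { toFun := e'B
      map_add' := e'B.map_add
      map_smul' := fun r n => by
        rw [← algebraMap_smul B' r n, e'B.map_smul, hsmulB'R', AlgHom.commutes]
        rfl }
  have he'a : ∀ n : N', e' n = e'B n := fun _ => rfl
  have he'smul : ∀ (b : B') (n : N'), e' (b • n) = ε' b * e' n := by
    intro b n
    rw [he'a, he'a, e'B.map_smul, hsmulB'R']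
  have he'j : ∀ n : N, e' (j n) = φ (e n) := fun n => by rw [he'a, he'B, hh₁a]
  refine ⟨e', he'smul, ?_⟩
  intro Q _ _ h hh
  -- `Q` as an `R`-module through `φ`
  letI modRQ : Module R Q := Module.compHom Q φ
  have hsmulRQ : ∀ (r : R) (q : Q), r • q = φ r • q := fun _ _ => rfl
  let hj' : N →ₗ[R] Q :=
    { toFun := fun n => h (j n)
      map_add' := fun x y => by rw [map_add, map_add]
      map_smul' := fun r n => by
        rw [← algebraMap_smul B r n, hj, hψalg, algebraMap_smul, h.map_smul]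
        rfl }
  have hj'a : ∀ n : N, hj' n = h (j n) := fun _ => rfl
  obtain ⟨g, hg, -⟩ := hu Q hj' (fun b n => by
    rw [hj'a, hj'a, hj, hh, hψε, hsmulRQ])
  -- `Q` as a `B'`-module through `ε'`
  letI modB'Q : Module B' Q := Module.compHom Q (ε' : B' →+* R')
  have hsmulB'Q : ∀ (c : B') (q : Q), c • q = ε' c • q := fun _ _ => rfl
  let F₁ : N' →ₗ[B'] Q :=
    { toFun := h
      map_add' := h.map_add
      map_smul' := fun b n => by rw [hh, RingHom.id_apply, hsmulB'Q] }
  let F₂ : N' →ₗ[B'] Q :=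
    { toFun := fun n => e' n • g 1
      map_add' := fun x y => by rw [map_add, add_smul]
      map_smul' := fun b n => by rw [he'smul, mul_smul, RingHom.id_apply, hsmulB'Q] }
  have hF : F₂ = F₁ := by
    refine (huniv Q ((h : N' →+ Q).comp j) (fun b n => by
      change h (j (b • n)) = ψ b • h (j n)
      rw [hj, hh, hsmulB'Q])).unique ?_ ?_
    · intro n
      change e' (j n) • g 1 = h (j n)
      rw [he'j, ← hsmulRQ, ← g.map_smul, smul_eq_mul, mul_one, hg, hj'a]
    · intro n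
      rfl
  have hF' : ∀ n : N', e' n • g 1 = h n := fun n => congrArg (fun F => F n) hF
  refine ⟨LinearMap.toSpanSingleton R' Q (g 1), fun n => by
    rw [LinearMap.toSpanSingleton_apply, hF'], ?_⟩
  intro g₂ hg₂
  obtain ⟨n₀, hn₀⟩ := hesurj
  have h1 : e' (j n₀) = 1 := by rw [he'j, hn₀, map_one]
  apply LinearMap.ext_ring
  rw [LinearMap.toSpanSingleton_apply, one_smul]
  have h2 := hg₂ (j n₀)
  have h3 := hF' (j n₀)
  rw [h1] at h2 h3
  rw [h2, ← h3, one_smul]

end core

/-- The point `ε` is compatible with base change of the family. -/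
theorem epsR_chartHom {R R' : Type u} [CommRing R] [Algebra k R] [CommRing R'] [Algebra k R']
    (φ : R →ₐ[k] R') (b : (𝒞.chart R).B₁) :
    𝒞.epsR R' ((𝒞.chartHom φ).ψ₁ b) = φ (𝒞.epsR R b) := by
  have key : ∀ b : R ⊗[k] 𝒞.A₁,
      Algebra.TensorProduct.lift (AlgHom.id R' R') ((Algebra.ofId k R').comp 𝒞.ε)
          (fun _ _ => Commute.all _ _)
        (Algebra.TensorProduct.map φ (AlgHom.id k 𝒞.A₁) b) =
      φ (Algebra.TensorProduct.lift (AlgHom.id R R) ((Algebra.ofId k R).comp 𝒞.ε)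
          (fun _ _ => Commute.all _ _) b) := by
    intro b
    induction b using TensorProduct.induction_on with
    | zero => simp only [map_zero]
    | tmul r a =>
      simp only [Algebra.TensorProduct.map_tmul, Algebra.TensorProduct.lift_tmul,
        AlgHom.id_apply, AlgHom.comp_apply, Algebra.ofId_apply, map_mul, AlgHom.commutes]
    | add x y hx hy => simp only [map_add, hx, hy]
  exact key b


/-- (G4b) Rigidity is stable under base change. -/
theorem rigid_of_isBC {R' : Type u} [CommRing R'] [Algebra k R'] (φ : R →ₐ[k] R')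
    (L : GluedModule (𝒞.chart R)) (L' : GluedModule (𝒞.chart R')) (h : Rigid 𝒞 L)
    (hbc : IsBC (𝒞.chartHom φ) L L') : Rigid 𝒞 L' := by
  obtain ⟨bcd⟩ := hbc
  exact rigid_baseChange_core (𝒞.epsR R) (𝒞.epsR R') (φ : R →+* R') (𝒞.chartHom φ).ψ₁
    (fun b => epsR_chartHom 𝒞 φ b) (𝒞.chartHom φ).alg₁ bcd.j₁ bcd.j₁_smul bcd.univ₁ h

end Fermat.Agent.S25.TWIST.G4.H7428
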