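/-
S25 package TWIST, leaf G4a (helper9130): rigidity is invariant under isomorphism.  No sorry.
-/
import Fermat.Agent.S25.TWIST.Defs

set_option autoImplicit false

universe u

namespace Fermat.Agent.S25.TWIST.G4.H9130

open scoped TensorProduct

open GluedModule

variable {k : Type u} [Field k] (𝒞 : CurveData k) {R : Type u} [CommRing R] [Algebra k R]

/-- (G4a) Rigidity is invariant under isomorphism. -/
theorem rigid_of_iso (L L' : GluedModule (𝒞.chart R)) (e : Nonempty (Iso L L'))
    (h : Rigid 𝒞 L) : Rigid 𝒞 L' := by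
  obtain ⟨e⟩ := e
  obtain ⟨ev, hev, huniv⟩ := h
  refine ⟨ev.comp (e.e₁.symm.toLinearMap.restrictScalars R), ?_, ?_⟩
  · intro b n
    change ev (e.e₁.symm (b • n)) = _
    rw [map_smul, hev]
    rfl
  · intro Q _ _ h hh
    obtain ⟨h', hh', huniq⟩ := huniv Q (h.comp (e.e₁.toLinearMap.restrictScalars R)) (by
      intro b n
      change h (e.e₁ (b • n)) = _
      rw [map_smul, hh]
      rfl)
    refine ⟨h', ?_, ?_⟩
    · intro n
      change h' (ev (e.e₁.symm n)) = h n
      rw [hh']
      change h (e.e₁ (e.e₁.symm n)) = h n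
      rw [LinearEquiv.apply_symm_apply]
    · intro h'' hh''
      apply huniq
      intro n
      have := hh'' (e.e₁ n)
      change h'' (ev (e.e₁.symm (e.e₁ n))) = h (e.e₁ n) at this
      rw [LinearEquiv.symm_apply_apply] at this
      exact this

end Fermat.Agent.S25.TWIST.G4.H9130
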